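import Mathlib.Analysis.InnerProductSpace.Adjoint
import Mathlib.Analysis.InnerProductSpace.l2Space
import Mathlib.Analysis.Normed.Operator.Compact.Basic

/-!
# Hilbert–Schmidt operators

`IsHS A` bounds `∑ ‖A vᵢ‖²` over finite orthonormal families; `hsInner b A B = ∑ᵢ ⟪A bᵢ, B bᵢ⟫`
does not depend on the Hilbert basis `b`, and `hsTrace b A B = ∑ᵢ ⟪bᵢ, A (B bᵢ)⟫` is the trace of
the product of two Hilbert–Schmidt operators.
-/

set_option autoImplicit false

noncomputable section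

namespace Fermat.Agent.L2Kernel

open Filter Topology
open scoped InnerProductSpace

variable {E F : Type*} [NormedAddCommGroup E] [InnerProductSpace ℂ E]
  [NormedAddCommGroup F] [InnerProductSpace ℂ F]

/-- Hilbert–Schmidt: `∑ ‖A v i‖²` is bounded over finite orthonormal families. -/
def IsHS (A : E →L[ℂ] F) : Prop :=
  ∃ C : ℝ, ∀ (ι : Type) (_ : Fintype ι) (v : ι → E), Orthonormal ℂ v → ∑ i, ‖A (v i)‖ ^ 2 ≤ C

/-- The defining bound for families indexed by any type. -/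
theorem IsHS.sum_le {A : E →L[ℂ] F} (hA : IsHS A) :
    ∃ C : ℝ, ∀ {ι : Type*} (v : ι → E), Orthonormal ℂ v →
      ∀ s : Finset ι, ∑ i ∈ s, ‖A (v i)‖ ^ 2 ≤ C := by
  obtain ⟨C, hC⟩ := hA
  refine ⟨C, fun {ι} v hv s => ?_⟩
  have h := hC (Fin (Fintype.card s)) inferInstance
    (fun j => v ((Fintype.equivFin s).symm j : s))
    (hv.comp _ (Subtype.val_injective.comp (Fintype.equivFin s).symm.injective))
  rw [← Finset.sum_coe_sort s]
  refine le_trans (le_of_eq ?_) h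
  rw [← (Fintype.equivFin s).sum_comp fun j => ‖A (v ((Fintype.equivFin s).symm j : s))‖ ^ 2]
  simp

/-- A Hilbert-Schmidt operator is square summable on every orthonormal family. -/
theorem IsHS.summable {A : E →L[ℂ] F} (hA : IsHS A) {ι : Type*} {v : ι → E}
    (hv : Orthonormal ℂ v) : Summable fun i => ‖A (v i)‖ ^ 2 :=
  let ⟨_, hC⟩ := hA.sum_le
  summable_of_sum_le (fun _ => sq_nonneg _) (hC v hv)

/-- Parseval: the squared coordinates sum to `‖x‖ ^ 2`. -/
theorem hasSum_sq_norm_inner {ι : Type*} (b : HilbertBasis ι ℂ E) (x : E) :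
    HasSum (fun i => ‖⟪b i, x⟫_ℂ‖ ^ 2) (‖x‖ ^ 2) := by
  have h := (b.hasSum_inner_mul_inner x x).mapL Complex.reCLM
  simp only [Complex.reCLM_apply] at h
  convert h using 1
  · funext i
    rw [← inner_conj_symm x (b i), Complex.conj_mul', ← Complex.ofReal_pow, Complex.ofReal_re]
  · rw [← inner_self_eq_norm_sq (𝕜 := ℂ)]
    rfl

/-- Hilbert-Schmidt operators are stable under sums. -/
theorem IsHS.add {A B : E →L[ℂ] F} (hA : IsHS A) (hB : IsHS B) : IsHS (A + B) := by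
  obtain ⟨C, hC⟩ := hA
  obtain ⟨D, hD⟩ := hB
  refine ⟨2 * C + 2 * D, fun ι _ v hv => ?_⟩
  calc ∑ i, ‖(A + B) (v i)‖ ^ 2 ≤ ∑ i, (2 * ‖A (v i)‖ ^ 2 + 2 * ‖B (v i)‖ ^ 2) :=
        Finset.sum_le_sum fun i _ => by
          have := norm_add_le (A (v i)) (B (v i))
          simp only [add_apply]
          nlinarith [sq_nonneg (‖A (v i)‖ - ‖B (v i)‖), norm_nonneg (A (v i) + B (v i))]
    _ ≤ _ := by
      rw [Finset.sum_add_distrib, ← Finset.mul_sum, ← Finset.mul_sum]
      gcongr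
      · exact hC ι inferInstance v hv
      · exact hD ι inferInstance v hv

/-- Hilbert-Schmidt operators are stable under scalars. -/
theorem IsHS.smul {A : E →L[ℂ] F} (hA : IsHS A) (c : ℂ) : IsHS (c • A) := by
  obtain ⟨C, hC⟩ := hA
  refine ⟨‖c‖ ^ 2 * C, fun ι _ v hv => ?_⟩
  simp only [smul_apply, norm_smul, mul_pow, ← Finset.mul_sum]
  gcongr
  exact hC ι inferInstance v hv

/-- Composition with a bounded operator preserves Hilbert-Schmidt operators. -/
theorem IsHS.clm_comp {G : Type*} [NormedAddCommGroup G] [InnerProductSpace ℂ G] {A : E →L[ℂ] F}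
    (hA : IsHS A) (U : F →L[ℂ] G) : IsHS (U ∘L A) := by
  obtain ⟨C, hC⟩ := hA
  refine ⟨‖U‖ ^ 2 * C, fun ι _ v hv => ?_⟩
  calc ∑ i, ‖(U ∘L A) (v i)‖ ^ 2 ≤ ∑ i, ‖U‖ ^ 2 * ‖A (v i)‖ ^ 2 :=
        Finset.sum_le_sum fun i _ => by
          rw [← mul_pow]
          gcongr
          exact U.le_opNorm _
    _ ≤ _ := by
      rw [← Finset.mul_sum]
      gcongr
      exact hC ι inferInstance v hv

variable [CompleteSpace E] [CompleteSpace F]

/-- A square-summable image of one Hilbert basis makes the adjoint Hilbert–Schmidt. -/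
theorem isHS_adjoint_of_summable {A : E →L[ℂ] F} {ι : Type*} (b : HilbertBasis ι ℂ E)
    (h : Summable fun i => ‖A (b i)‖ ^ 2) : IsHS (ContinuousLinearMap.adjoint A) := by
  refine ⟨∑' i, ‖A (b i)‖ ^ 2, fun κ _ w hw => ?_⟩
  have h1 : HasSum (fun i => ∑ k, ‖⟪b i, ContinuousLinearMap.adjoint A (w k)⟫_ℂ‖ ^ 2)
      (∑ k, ‖ContinuousLinearMap.adjoint A (w k)‖ ^ 2) :=
    hasSum_sum fun k _ => hasSum_sq_norm_inner b _
  rw [← h1.tsum_eq]
  refine h1.summable.tsum_le_tsum (fun i => ?_) h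
  simp only [ContinuousLinearMap.adjoint_inner_right]
  calc ∑ k, ‖⟪A (b i), w k⟫_ℂ‖ ^ 2 = ∑ k, ‖⟪w k, A (b i)⟫_ℂ‖ ^ 2 :=
        Finset.sum_congr rfl fun k _ => by rw [norm_inner_symm]
    _ ≤ ‖A (b i)‖ ^ 2 := hw.sum_inner_products_le _

/-- The adjoint of a Hilbert–Schmidt operator is Hilbert–Schmidt. -/
theorem IsHS.adjoint {A : E →L[ℂ] F} (hA : IsHS A) : IsHS (ContinuousLinearMap.adjoint A) :=
  let ⟨_, b, _⟩ := exists_hilbertBasis ℂ E
  isHS_adjoint_of_summable b (hA.summable b.orthonormal)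

/-- Hilbert–Schmidt operators are compact. -/
theorem IsHS.isCompactOperator {A : E →L[ℂ] F} (hA : IsHS A) : IsCompactOperator A := by
  obtain ⟨w, b, -⟩ := exists_hilbertBasis ℂ E
  set R : w → E →L[ℂ] F := fun i => (innerSL ℂ (b i)).smulRight (A (b i)) with hR
  have hRapp : ∀ i x, R i x = ⟪b i, x⟫_ℂ • A (b i) := fun i x => rfl
  have hbound : ∀ t : Finset w, ‖∑ i ∈ t, R i‖ ≤ √(∑ i ∈ t, ‖A (b i)‖ ^ 2) := by
    intro t
    refine ContinuousLinearMap.opNorm_le_bound _ (Real.sqrt_nonneg _) fun x => ?_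
    rw [sum_apply]
    calc ‖∑ i ∈ t, R i x‖ ≤ ∑ i ∈ t, ‖⟪b i, x⟫_ℂ‖ * ‖A (b i)‖ :=
          (norm_sum_le _ _).trans_eq (Finset.sum_congr rfl fun i _ => by rw [hRapp, norm_smul])
      _ ≤ √(∑ i ∈ t, ‖⟪b i, x⟫_ℂ‖ ^ 2) * √(∑ i ∈ t, ‖A (b i)‖ ^ 2) :=
          Real.sum_mul_le_sqrt_mul_sqrt _ _ _
      _ ≤ ‖x‖ * √(∑ i ∈ t, ‖A (b i)‖ ^ 2) := by
          gcongr
          rw [← Real.sqrt_sq (norm_nonneg x)]
          exact Real.sqrt_le_sqrt (b.orthonormal.sum_inner_products_le x)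
      _ = _ := mul_comm _ _
  have hsum : Summable R := by
    rw [summable_iff_vanishing_norm]
    intro ε hε
    obtain ⟨s, hs⟩ := summable_iff_vanishing_norm.mp (hA.summable b.orthonormal) (ε ^ 2) (by positivity)
    refine ⟨s, fun t ht => lt_of_le_of_lt (hbound t) ?_⟩
    rw [Real.sqrt_lt' hε]
    exact lt_of_le_of_lt (Real.le_norm_self _) (hs t ht)
  have hlim : ∑' i, R i = A := by
    ext x
    refine ((hsum.hasSum.mapL (ContinuousLinearMap.apply ℂ F x)).tsum_eq.symm.trans ?_)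
    have := (b.hasSum_repr x).mapL A
    simp only [map_smul, b.repr_apply_apply] at this
    exact this.tsum_eq
  rw [← hlim]
  refine isCompactOperator_of_tendsto hsum.hasSum (Eventually.of_forall fun t => ?_)
  suffices (∑ i ∈ t, R i) ∈ compactOperator (RingHom.id ℂ) E F from this
  refine Submodule.sum_mem _ fun i _ => ?_
  have h1 : IsCompactOperator (innerSL ℂ (b i)) := isCompactOperator_of_locallyCompactSpace_dom _
  exact h1.clm_comp ((ContinuousLinearMap.id ℂ ℂ).smulRight (A (b i)))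

variable {G : Type*} [NormedAddCommGroup G] [InnerProductSpace ℂ G] [CompleteSpace G]

/-- The Hilbert–Schmidt inner product in a given basis. -/
def hsInner {ι : Type*} (b : HilbertBasis ι ℂ E) (A B : E →L[ℂ] F) : ℂ :=
  ∑' i, ⟪A (b i), B (b i)⟫_ℂ

/-- Passing to the adjoints reverses the Hilbert–Schmidt inner product, in any bases. -/
theorem hsInner_adjoint {ι κ : Type*} (b : HilbertBasis ι ℂ E) (c : HilbertBasis κ ℂ F)
    {A B : E →L[ℂ] F} (hA : IsHS A) (hB : IsHS B) :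
    hsInner b A B =
      hsInner c (ContinuousLinearMap.adjoint B) (ContinuousLinearMap.adjoint A) := by
  set f : ι → κ → ℂ := fun i j => ⟪A (b i), c j⟫_ℂ * ⟪c j, B (b i)⟫_ℂ with hf
  have hsq : ∀ (T : E →L[ℂ] F), IsHS T →
      Summable fun p : ι × κ => ‖⟪c p.2, T (b p.1)⟫_ℂ‖ ^ 2 := by
    intro T hT
    refine (summable_prod_of_nonneg
      (f := fun p : ι × κ => ‖⟪c p.2, T (b p.1)⟫_ℂ‖ ^ 2) (fun p => sq_nonneg _)).mpr
      ⟨fun i => (hasSum_sq_norm_inner c (T (b i))).summable, ?_⟩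
    exact (hT.summable b.orthonormal).congr fun i =>
      (hasSum_sq_norm_inner c (T (b i))).tsum_eq.symm
  have hsum : Summable (Function.uncurry f) := by
    refine .of_norm_bounded ((hsq A hA).add (hsq B hB)) fun p => ?_
    simp only [Function.uncurry, hf, norm_mul]
    rw [norm_inner_symm (A (b p.1)) (c p.2)]
    nlinarith [sq_nonneg (‖⟪c p.2, A (b p.1)⟫_ℂ‖ - ‖⟪c p.2, B (b p.1)⟫_ℂ‖)]
  have h1 : ∀ i, ∑' j, f i j = ⟪A (b i), B (b i)⟫_ℂ := fun i => c.tsum_inner_mul_inner _ _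
  have h2 : ∀ j, ∑' i, f i j =
      ⟪ContinuousLinearMap.adjoint B (c j), ContinuousLinearMap.adjoint A (c j)⟫_ℂ := by
    intro j
    rw [← b.tsum_inner_mul_inner]
    refine tsum_congr fun i => ?_
    rw [hf, ContinuousLinearMap.adjoint_inner_left, ContinuousLinearMap.adjoint_inner_right]
    ring
  unfold hsInner
  simp_rw [← h1, ← h2]
  exact hsum.tsum_comm.symm

/-- Independence of the basis. -/
theorem hsInner_congr {ι ι' : Type*} (b : HilbertBasis ι ℂ E) (b' : HilbertBasis ι' ℂ E)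
    {A B : E →L[ℂ] F} (hA : IsHS A) (hB : IsHS B) : hsInner b A B = hsInner b' A B := by
  obtain ⟨w, c, -⟩ := exists_hilbertBasis ℂ F
  rw [hsInner_adjoint b c hA hB, hsInner_adjoint b' c hA hB]

/-- The trace of a product of two Hilbert–Schmidt operators, in a given basis. -/
def hsTrace {ι : Type*} (b : HilbertBasis ι ℂ E) (A : F →L[ℂ] E) (B : E →L[ℂ] F) : ℂ :=
  ∑' i, ⟪b i, A (B (b i))⟫_ℂ

/-- The trace of a product as a Hilbert-Schmidt inner product. -/
theorem hsTrace_eq_hsInner {ι : Type*} (b : HilbertBasis ι ℂ E) (A : F →L[ℂ] E) (B : E →L[ℂ] F) :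
    hsTrace b A B = hsInner b (ContinuousLinearMap.adjoint A) B :=
  tsum_congr fun _ => (ContinuousLinearMap.adjoint_inner_left _ _ _).symm

/-- The trace of a product does not depend on the basis. -/
theorem hsTrace_congr {ι ι' : Type*} (b : HilbertBasis ι ℂ E) (b' : HilbertBasis ι' ℂ E)
    {A : F →L[ℂ] E} {B : E →L[ℂ] F} (hA : IsHS A) (hB : IsHS B) :
    hsTrace b A B = hsTrace b' A B := by
  rw [hsTrace_eq_hsInner, hsTrace_eq_hsInner, hsInner_congr b b' hA.adjoint hB]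

end Fermat.Agent.L2Kernel

end
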